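import Mathlib.Analysis.SpecialFunctions.Gaussian.GaussianIntegral
import Mathlib.MeasureTheory.Function.Floor
import Mathlib.MeasureTheory.Integral.Gamma
import Mathlib.MeasureTheory.Integral.Prod

/-!
# The area condition for quadratic pairing polynomials

If `P x y` runs exactly once through the natural numbers then `s ∑ exp (-s P x y) → 1` as `s → 0`,
and this limit is the integral of `exp (-Q)` over the quadrant, `Q` the leading form.
-/

set_option autoImplicit false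

noncomputable section

open MeasureTheory Filter Topology Set

namespace FA.FueterPolya

/-- The quadratic polynomial. -/
def quad (a b c d e f x y : ℝ) : ℝ := a * x ^ 2 + b * x * y + c * y ^ 2 + d * x + e * y + f

/-- It runs exactly once through the natural numbers. -/
def IsPairing (a b c d e f : ℝ) : Prop :=
  ∃ g : ℕ × ℕ → ℕ, Function.Bijective g ∧
    ∀ p : ℕ × ℕ, (g p : ℝ) = quad a b c d e f p.1 p.2

/-- A square of side `h` in the quadrant. -/
def tile (h : ℝ) (p : ℕ × ℕ) : Set (ℝ × ℝ) :=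
  Ico (h * p.1) (h * (p.1 + 1)) ×ˢ Ico (h * p.2) (h * (p.2 + 1))

theorem mem_tile_iff {h : ℝ} (hh : 0 < h) {p : ℕ × ℕ} {z : ℝ × ℝ} :
    z ∈ tile h p ↔ (0 ≤ z.1 ∧ 0 ≤ z.2) ∧ ⌊z.1 / h⌋₊ = p.1 ∧ ⌊z.2 / h⌋₊ = p.2 := by
  have key : ∀ (x : ℝ) (m : ℕ), x ∈ Ico (h * m) (h * (m + 1)) ↔ 0 ≤ x ∧ ⌊x / h⌋₊ = m := by
    intro x m
    have e1 : (m : ℝ) ≤ x / h ↔ h * m ≤ x := by rw [le_div_iff₀ hh, mul_comm]
    have e2 : x / h < (m : ℝ) + 1 ↔ x < h * (m + 1) := by rw [div_lt_iff₀ hh, mul_comm h]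
    constructor
    · rintro ⟨h1, h2⟩
      have h0 : 0 ≤ x := le_trans (by positivity) h1
      exact ⟨h0, (Nat.floor_eq_iff (div_nonneg h0 hh.le)).2 ⟨e1.2 h1, e2.2 h2⟩⟩
    · rintro ⟨h0, hm⟩
      obtain ⟨h1, h2⟩ := (Nat.floor_eq_iff (div_nonneg h0 hh.le)).1 hm
      exact ⟨e1.1 h1, e2.1 h2⟩
  rw [tile, mem_prod, key, key]
  tauto

/-- The sum over the lattice is the integral of a step function. -/
theorem setIntegral_step {h : ℝ} (hh : 0 < h) (G : ℕ → ℕ → ℝ)
    (hi : IntegrableOn (fun z : ℝ × ℝ => G ⌊z.1 / h⌋₊ ⌊z.2 / h⌋₊) (Ici 0 ×ˢ Ici 0)) :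
    ∫ z in Ici (0 : ℝ) ×ˢ Ici (0 : ℝ), G ⌊z.1 / h⌋₊ ⌊z.2 / h⌋₊ =
      ∑' p : ℕ × ℕ, h ^ 2 * G p.1 p.2 := by
  have hU : Ici (0 : ℝ) ×ˢ Ici (0 : ℝ) = ⋃ p, tile h p := by
    ext z
    simp only [mem_iUnion, mem_tile_iff hh, mem_prod, mem_Ici]
    exact ⟨fun h0 => ⟨(⌊z.1 / h⌋₊, ⌊z.2 / h⌋₊), h0, rfl, rfl⟩, fun ⟨p, h0, _⟩ => h0⟩
  have hm : ∀ p, MeasurableSet (tile h p) := fun p => measurableSet_Ico.prod measurableSet_Ico
  have hd : Pairwise (Function.onFun Disjoint (tile h)) := fun p q hpq => by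
    refine disjoint_left.2 fun z hp hq => hpq ?_
    rw [mem_tile_iff hh] at hp hq
    exact Prod.ext (hp.2.1.symm.trans hq.2.1) (hp.2.2.symm.trans hq.2.2)
  rw [hU, integral_iUnion hm hd (hU ▸ hi)]
  refine tsum_congr fun p => ?_
  have hc : EqOn (fun z : ℝ × ℝ => G ⌊z.1 / h⌋₊ ⌊z.2 / h⌋₊) (fun _ => G p.1 p.2) (tile h p) :=
    fun z hz => by
      obtain ⟨-, h1, h2⟩ := (mem_tile_iff hh).1 hz
      show G ⌊z.1 / h⌋₊ ⌊z.2 / h⌋₊ = _
      rw [h1, h2]
  rw [setIntegral_congr_fun (hm p) hc, setIntegral_const, smul_eq_mul]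
  congr 1
  rw [tile, Measure.volume_eq_prod, measureReal_prod_prod,
    Real.volume_real_Ico_of_le (by nlinarith),
    Real.volume_real_Ico_of_le (by nlinarith)]
  ring

theorem measurable_floor_div (h : ℝ) : Measurable fun x : ℝ => ((⌊x / h⌋₊ : ℕ) : ℝ) :=
  (measurable_from_nat (f := fun n : ℕ => (n : ℝ))).comp
    (measurable_id.div_const h).nat_floor

/-- `∫ u exp (-k u ^ 2) = 1 / (2 k)`. -/
theorem integral_mul_exp {k : ℝ} (hk : 0 < k) :
    ∫ u in Ioi (0 : ℝ), u * Real.exp (-(k * u ^ 2)) = k⁻¹ / 2 := by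
  have h := integral_rpow_mul_exp_neg_mul_rpow (p := 2) (q := 1) two_pos (by norm_num) hk
  simp only [Real.rpow_one, Real.rpow_two, neg_mul] at h
  rw [h]
  norm_num [Real.rpow_neg_one]
  ring

theorem integrableOn_mul_exp {k : ℝ} (hk : 0 < k) :
    IntegrableOn (fun u : ℝ => u * Real.exp (-(k * u ^ 2))) (Ioi 0) := by
  simpa using integrableOn_rpow_mul_exp_neg_mul_sq hk (s := 1) (by norm_num)

/-- **The area condition.** -/
theorem integral_inv_eq_two {a b c d e f δ : ℝ} (hP : IsPairing a b c d e f) (hδ : 0 < δ)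
    (hQ : ∀ u v : ℝ, 0 ≤ u → 0 ≤ v → δ * (u ^ 2 + v ^ 2) ≤ a * u ^ 2 + b * u * v + c * v ^ 2) :
    ∫ t in Ioi (0 : ℝ), (a + b * t + c * t ^ 2)⁻¹ = 2 := by
  obtain ⟨g, hg, hgv⟩ := hP
  set S : Set (ℝ × ℝ) := Ici (0 : ℝ) ×ˢ Ici (0 : ℝ) with hS
  have hSm : MeasurableSet S := measurableSet_Ici.prod measurableSet_Ici
  set Q : ℝ × ℝ → ℝ := fun z => a * z.1 ^ 2 + b * z.1 * z.2 + c * z.2 ^ 2 with hQd
  set F : ℕ → ℝ × ℝ → ℝ := fun M z => Real.exp (-((1 / ((M : ℝ) + 1)) ^ 2 *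
    quad a b c d e f (⌊z.1 / (1 / ((M : ℝ) + 1))⌋₊ : ℕ) (⌊z.2 / (1 / ((M : ℝ) + 1))⌋₊ : ℕ)))
    with hF
  set K := (d ^ 2 + e ^ 2) / (2 * δ) + |f| with hK
  set bound : ℝ × ℝ → ℝ := fun z =>
    Real.exp (K + 2 * δ) * (Real.exp (-(δ / 4) * z.1 ^ 2) * Real.exp (-(δ / 4) * z.2 ^ 2))
    with hbound
  have hbi : Integrable bound (volume.restrict S) := by
    refine Integrable.restrict ?_
    rw [Measure.volume_eq_prod]
    exact ((integrable_exp_neg_mul_sq (by linarith)).mul_prod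
      (integrable_exp_neg_mul_sq (by linarith))).const_mul _
  have hle : ∀ M, ∀ᵐ z ∂volume.restrict S, ‖F M z‖ ≤ bound z := by
    intro M
    refine ae_restrict_of_forall_mem hSm fun z hz => ?_
    obtain ⟨hz1, hz2⟩ := hz
    rw [mem_Ici] at hz1 hz2
    set h := 1 / ((M : ℝ) + 1) with hh
    have hh0 : 0 < h := by positivity
    have hh1 : h ≤ 1 := by
      rw [hh, div_le_one (by positivity)]
      linarith [Nat.cast_nonneg (α := ℝ) M]
    set x : ℝ := ((⌊z.1 / h⌋₊ : ℕ) : ℝ) with hx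
    set y : ℝ := ((⌊z.2 / h⌋₊ : ℕ) : ℝ) with hy
    have hx0 : 0 ≤ x := Nat.cast_nonneg _
    have hy0 : 0 ≤ y := Nat.cast_nonneg _
    have hx1 : z.1 ≤ h * x + h := by
      have := Nat.lt_floor_add_one (z.1 / h)
      rw [← hx, div_lt_iff₀ hh0] at this
      linarith
    have hy1 : z.2 ≤ h * y + h := by
      have := Nat.lt_floor_add_one (z.2 / h)
      rw [← hy, div_lt_iff₀ hh0] at this
      linarith
    show ‖Real.exp (-(h ^ 2 * quad a b c d e f x y))‖ ≤
      Real.exp (K + 2 * δ) * (Real.exp (-(δ / 4) * z.1 ^ 2) * Real.exp (-(δ / 4) * z.2 ^ 2))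
    rw [Real.norm_eq_abs, Real.abs_exp, ← Real.exp_add, ← Real.exp_add, Real.exp_le_exp]
    have hlin : δ / 2 * (x ^ 2 + y ^ 2) - K ≤ quad a b c d e f x y := by
      have h1 := hQ x y hx0 hy0
      have h2 : 0 ≤ (δ * x + d) ^ 2 / (2 * δ) + (δ * y + e) ^ 2 / (2 * δ) := by positivity
      have h3 : (δ * x + d) ^ 2 / (2 * δ) + (δ * y + e) ^ 2 / (2 * δ) =
          δ / 2 * (x ^ 2 + y ^ 2) + d * x + e * y + (d ^ 2 + e ^ 2) / (2 * δ) := by
        field_simp
        ring
      rw [hK, quad]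
      linarith [neg_abs_le f]
    have hK0 : 0 ≤ K := by positivity
    have h4 := mul_le_mul_of_nonneg_left hlin (sq_nonneg h)
    have h5 : h ^ 2 * K ≤ 1 * K := mul_le_mul_of_nonneg_right (pow_le_one₀ hh0.le hh1) hK0
    have h6 : z.1 ^ 2 ≤ 2 * (h * x) ^ 2 + 2 * 1 := by
      nlinarith [sq_nonneg (h * x - h), pow_le_pow_left₀ hz1 hx1 2]
    have h7 : z.2 ^ 2 ≤ 2 * (h * y) ^ 2 + 2 * 1 := by
      nlinarith [sq_nonneg (h * y - h), pow_le_pow_left₀ hz2 hy1 2]
    nlinarith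
  have hmeas : ∀ M, Measurable (F M) := fun M => by
    have h1 : Measurable fun z : ℝ × ℝ => ((⌊z.1 / (1 / ((M : ℝ) + 1))⌋₊ : ℕ) : ℝ) :=
      (measurable_floor_div _).comp measurable_fst
    have h2 : Measurable fun z : ℝ × ℝ => ((⌊z.2 / (1 / ((M : ℝ) + 1))⌋₊ : ℕ) : ℝ) :=
      (measurable_floor_div _).comp measurable_snd
    simp only [hF, quad]
    exact Real.measurable_exp.comp ((((((((h1.pow_const 2).const_mul a).add
      ((h1.const_mul b).mul h2)).add ((h2.pow_const 2).const_mul c)).add (h1.const_mul d)).add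
      (h2.const_mul e)).add_const f).const_mul _).neg
  have hlim : Tendsto (fun M => ∫ z in S, F M z) atTop (𝓝 (∫ z in S, Real.exp (-Q z))) := by
    refine tendsto_integral_filter_of_dominated_convergence bound
      (Eventually.of_forall fun M => (hmeas M).aestronglyMeasurable) (Eventually.of_forall hle) hbi
      (ae_restrict_of_forall_mem hSm fun z hz => ?_)
    obtain ⟨hz1, hz2⟩ := hz
    rw [mem_Ici] at hz1 hz2
    have hh : Tendsto (fun M : ℕ => 1 / ((M : ℝ) + 1)) atTop (𝓝 0) :=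
      tendsto_one_div_add_atTop_nhds_zero_nat
    have hcoord : ∀ w : ℝ, 0 ≤ w → Tendsto (fun M : ℕ =>
        1 / ((M : ℝ) + 1) * (⌊w / (1 / ((M : ℝ) + 1))⌋₊ : ℕ)) atTop (𝓝 w) := by
      intro w hw
      have hlow : Tendsto (fun M : ℕ => w - 1 / ((M : ℝ) + 1)) atTop (𝓝 w) := by
        simpa using hh.const_sub w
      refine tendsto_of_tendsto_of_tendsto_of_le_of_le hlow tendsto_const_nhds
        (fun M => ?_) fun M => ?_
      · have h0 : (0 : ℝ) < 1 / ((M : ℝ) + 1) := by positivity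
        have := Nat.lt_floor_add_one (w / (1 / ((M : ℝ) + 1)))
        rw [div_lt_iff₀ h0] at this
        linarith
      · have h0 : (0 : ℝ) < 1 / ((M : ℝ) + 1) := by positivity
        have := Nat.floor_le (div_nonneg hw h0.le)
        rw [le_div_iff₀ h0] at this
        linarith
    have h1 := hcoord z.1 hz1
    have h2 := hcoord z.2 hz2
    have h3 := (((((h1.pow 2).const_mul a).add ((h1.const_mul b).mul h2)).add
      ((h2.pow 2).const_mul c)).add (((hh.mul (h1.const_mul d)).add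
      (hh.mul (h2.const_mul e))))).add ((hh.pow 2).mul_const f)
    simp only [zero_mul, add_zero, ne_eq, OfNat.ofNat_ne_zero, not_false_eq_true, zero_pow] at h3
    refine (Real.continuous_exp.tendsto _).comp (Tendsto.neg (h3.congr fun M => ?_))
    simp only [quad]
    ring
  -- its value
  have hval : ∀ M : ℕ, ∫ z in S, F M z =
      (1 / ((M : ℝ) + 1)) ^ 2 * (1 - Real.exp (-(1 / ((M : ℝ) + 1)) ^ 2))⁻¹ := by
    intro M
    set h := 1 / ((M : ℝ) + 1) with hh
    have hh0 : 0 < h := by positivity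
    refine (setIntegral_step hh0 (fun m n : ℕ => Real.exp (-(h ^ 2 * quad a b c d e f m n)))
      (Integrable.mono' hbi (hmeas M).aestronglyMeasurable (hle M))).trans ?_
    simp only [← hgv]
    rw [tsum_mul_left, show ∑' p : ℕ × ℕ, Real.exp (-(h ^ 2 * g p)) =
        ∑' n : ℕ, Real.exp (-(h ^ 2 * n)) from
      (Equiv.ofBijective g hg).tsum_eq fun n : ℕ => Real.exp (-(h ^ 2 * n))]
    congr 1
    rw [← tsum_geometric_of_lt_one (Real.exp_pos _).le
      (Real.exp_lt_one_iff.2 (by nlinarith [pow_pos hh0 2]))]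
    exact tsum_congr fun n => by rw [← Real.exp_nat_mul]; ring_nf
  have hone : Tendsto (fun M => ∫ z in S, F M z) atTop (𝓝 1) := by
    simp only [hval]
    have hder : Tendsto (fun t : ℝ => t⁻¹ * (Real.exp t - 1)) (𝓝[≠] 0) (𝓝 1) := by
      simpa [slope_fun_def, Real.exp_zero] using
        hasDerivAt_iff_tendsto_slope.1 (Real.hasDerivAt_exp 0)
    have hneg : Tendsto (fun M : ℕ => -(1 / ((M : ℝ) + 1)) ^ 2) atTop (𝓝[≠] 0) := by
      refine tendsto_nhdsWithin_iff.2 ⟨?_, Eventually.of_forall fun M => ?_⟩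
      · simpa using ((tendsto_one_div_add_atTop_nhds_zero_nat (𝕜 := ℝ)).pow 2).neg
      · exact neg_ne_zero.2 (pow_ne_zero _ (by positivity))
    have h1 := (hder.comp hneg).inv₀ one_ne_zero
    rw [inv_one] at h1
    refine h1.congr fun M => ?_
    simp only [Function.comp, mul_inv, inv_inv]
    rw [← neg_sub (1 : ℝ) (Real.exp _), inv_neg]
    ring
  have hI := tendsto_nhds_unique hlim hone
  -- the inner substitution
  have hQint : IntegrableOn (fun z => Real.exp (-Q z)) S := by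
    refine Integrable.mono' hbi (Measurable.aestronglyMeasurable (by fun_prop))
      (ae_restrict_of_forall_mem hSm fun z hz => ?_)
    simp only [hbound]
    rw [Real.norm_eq_abs, Real.abs_exp, ← Real.exp_add, ← Real.exp_add, Real.exp_le_exp]
    have := hQ z.1 z.2 hz.1 hz.2
    have hK0 : 0 ≤ K := by positivity
    simp only [hQd]
    nlinarith
  rw [hS, Measure.volume_eq_prod] at hQint hI
  rw [setIntegral_prod _ hQint, integral_Ici_eq_integral_Ioi] at hI
  simp only [integral_Ici_eq_integral_Ioi] at hI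
  set q : ℝ → ℝ := fun t => a + b * t + c * t ^ 2 with hq
  have hq0 : ∀ t ∈ Ioi (0 : ℝ), δ * (1 + t ^ 2) ≤ q t := fun t ht => by
    have := hQ 1 t zero_le_one (le_of_lt ht)
    simp only [hq]
    linarith
  have hqpos : ∀ t ∈ Ioi (0 : ℝ), 0 < q t := fun t ht =>
    lt_of_lt_of_le (by positivity) (hq0 t ht)
  have hin : ∀ u ∈ Ioi (0 : ℝ), ∫ v in Ioi (0 : ℝ), Real.exp (-Q (u, v)) =
      ∫ t in Ioi (0 : ℝ), u * Real.exp (-(q t * u ^ 2)) := by
    intro u hu
    have h1 := integral_comp_mul_left_Ioi' (fun v => Real.exp (-Q (u, v))) 0 hu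
    rw [mul_zero, smul_eq_mul, ← integral_const_mul] at h1
    rw [← h1]
    refine setIntegral_congr_fun measurableSet_Ioi fun t _ => ?_
    simp only [hq, hQd]
    congr 2
    ring
  rw [setIntegral_congr_fun measurableSet_Ioi hin] at hI
  have hint : Integrable (Function.uncurry fun u t : ℝ => u * Real.exp (-(q t * u ^ 2)))
      ((volume.restrict (Ioi 0)).prod (volume.restrict (Ioi 0))) := by
    refine (integrable_prod_iff' (Measurable.aestronglyMeasurable (by
      simp only [hq, Function.uncurry_def]; fun_prop))).2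
      ⟨ae_restrict_of_forall_mem measurableSet_Ioi fun t ht => integrableOn_mul_exp (hqpos t ht),
        ?_⟩
    have h2 : ∀ t ∈ Ioi (0 : ℝ),
        ∫ u in Ioi (0 : ℝ), ‖u * Real.exp (-(q t * u ^ 2))‖ = (q t)⁻¹ / 2 := fun t ht => by
      rw [← integral_mul_exp (hqpos t ht)]
      refine setIntegral_congr_fun measurableSet_Ioi fun u hu => ?_
      exact Real.norm_of_nonneg (mul_nonneg (le_of_lt hu) (Real.exp_pos _).le)
    refine IntegrableOn.congr_fun ?_ (fun t ht => (h2 t ht).symm) measurableSet_Ioi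
    refine ((integrable_inv_one_add_sq.const_mul δ⁻¹).integrableOn.mono'
      (Measurable.aestronglyMeasurable (by simp only [hq]; fun_prop))
      (ae_restrict_of_forall_mem measurableSet_Ioi fun t ht => ?_))
    have h3 := inv_anti₀ (by positivity) (hq0 t ht)
    rw [Real.norm_of_nonneg (div_nonneg (inv_nonneg.2 (hqpos t ht).le) zero_le_two), ← mul_inv]
    exact le_trans (half_le_self (inv_nonneg.2 (hqpos t ht).le)) h3
  rw [integral_integral_swap hint,
    setIntegral_congr_fun measurableSet_Ioi (fun t ht => integral_mul_exp (hqpos t ht)),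
    integral_div] at hI
  linarith

end FA.FueterPolya

end
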