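import Fermat.Agent.FueterPolya.Positive
import Fermat.Agent.Root.SummaryTranscendence
import Mathlib.Analysis.SpecialFunctions.Trigonometric.ArctanDeriv

/-!
# The theorem of Fueter and Pólya

The area condition makes the leading form `(x + y) ^ 2 / 2` by Lindemann's theorem; a short
combinatorial argument on the diagonals leaves the two polynomials of Cantor.
-/

set_option autoImplicit false

noncomputable section

open MeasureTheory Filter Topology Set

namespace FA.FueterPolya

variable {a b c d e f : ℝ}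

theorem tendsto_affine_atTop (hc : 0 < c) (b : ℝ) :
    Tendsto (fun t : ℝ => 2 * c * t + b) atTop atTop :=
  tendsto_atTop_add_const_right _ _ (tendsto_id.const_mul_atTop (by positivity))

theorem quadratic_pos {δ : ℝ} (hδ : 0 < δ)
    (hQ : ∀ u v : ℝ, 0 ≤ u → 0 ≤ v → δ * (u ^ 2 + v ^ 2) ≤ a * u ^ 2 + b * u * v + c * v ^ 2)
    {t : ℝ} (ht : 0 ≤ t) : 0 < a + b * t + c * t ^ 2 := by
  have := hQ 1 t zero_le_one ht
  nlinarith [sq_nonneg t]

theorem not_disc_neg (hw : IsAlgebraic ℚ (4 * a * c - b ^ 2)) (hb : IsAlgebraic ℚ b)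
    (hD : b ^ 2 < 4 * a * c) (hc : 0 < c) (hpos : ∀ t, 0 ≤ t → 0 < a + b * t + c * t ^ 2) :
    ∫ t in Ioi (0 : ℝ), (a + b * t + c * t ^ 2)⁻¹ ≠ 2 := by
  intro hJ
  set w := Real.sqrt (4 * a * c - b ^ 2) with hwd
  have hw0 : 0 < w := Real.sqrt_pos.2 (by linarith)
  have hw2 : w ^ 2 = 4 * a * c - b ^ 2 := Real.sq_sqrt (by linarith)
  have hder : ∀ t ∈ Ici (0 : ℝ), HasDerivAt (fun t => 2 / w * Real.arctan ((2 * c * t + b) / w))
      (a + b * t + c * t ^ 2)⁻¹ t := by
    intro t ht
    refine (((((hasDerivAt_id t).const_mul (2 * c)).add_const b).div_const w).arctan.const_mul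
      (2 / w)).congr_deriv ?_
    have := hpos t ht
    simp only [id]
    refine eq_inv_of_mul_eq_one_left ?_
    field_simp
    linear_combination (-(1 : ℝ)) * hw2
  have hlim : Tendsto (fun t => 2 / w * Real.arctan ((2 * c * t + b) / w)) atTop
      (𝓝 (2 / w * (Real.pi / 2))) :=
    ((Real.tendsto_arctan_atTop.mono_right nhdsWithin_le_nhds).comp
      ((tendsto_affine_atTop hc b).atTop_div_const hw0)).const_mul _
  rw [integral_Ioi_of_hasDerivAt_of_nonneg' hder
    (fun t ht => (inv_pos.2 (hpos t (le_of_lt ht))).le) hlim, mul_zero, zero_add] at hJ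
  have harc : Real.arctan (b / w) = Real.pi / 2 - w := by
    field_simp at hJ
    linarith
  have hwalg : IsAlgebraic ℚ w := IsAlgebraic.of_pow two_pos (by rwa [hw2])
  have hcos : IsAlgebraic ℚ (Real.cos w) := by
    refine IsAlgebraic.of_pow two_pos ?_
    rw [← Real.sin_pi_div_two_sub, ← harc, Real.sin_arctan, div_pow,
      Real.sq_sqrt (by positivity), div_eq_mul_inv, div_pow, div_eq_mul_inv]
    have h1 : IsAlgebraic ℚ (b ^ 2 * (w ^ 2)⁻¹) := (hb.pow 2).mul (hwalg.pow 2).inv
    exact h1.mul (isAlgebraic_one.add h1).inv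
  refine FA.Summary.transcendental_cos (Complex.ofReal_ne_zero.2 hw0.ne')
    (hwalg.algebraMap (A := ℂ)) ?_
  rw [← Complex.ofReal_cos]
  exact hcos.algebraMap (A := ℂ)

theorem not_disc_pos (hD' : IsAlgebraic ℚ (b ^ 2 - 4 * a * c)) (hb : IsAlgebraic ℚ b)
    (hD : 4 * a * c < b ^ 2) (ha : 0 < a) (hc : 0 < c) (hb0 : 0 < b)
    (hpos : ∀ t, 0 ≤ t → 0 < a + b * t + c * t ^ 2) :
    ∫ t in Ioi (0 : ℝ), (a + b * t + c * t ^ 2)⁻¹ ≠ 2 := by
  intro hJ
  set s := Real.sqrt (b ^ 2 - 4 * a * c) with hsd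
  have hs0 : 0 < s := Real.sqrt_pos.2 (by linarith)
  have hs2 : s ^ 2 = b ^ 2 - 4 * a * c := Real.sq_sqrt (by linarith)
  have hsb : s < b := by nlinarith [mul_pos ha hc]
  have hder : ∀ t ∈ Ici (0 : ℝ), HasDerivAt
      (fun t => (Real.log (2 * c * t + b - s) - Real.log (2 * c * t + b + s)) / s)
      (a + b * t + c * t ^ 2)⁻¹ t := by
    intro t ht
    rw [mem_Ici] at ht
    have hct : 0 ≤ 2 * c * t := by positivity
    have h := ((hasDerivAt_id t).const_mul (2 * c)).add_const b
    refine ((((h.sub_const s).log (by simp; linarith)).sub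
      ((h.add_const s).log (by simp; linarith))).div_const s).congr_deriv ?_
    have := hpos t ht
    have h1 : 2 * c * t + b - s ≠ 0 := by linarith
    have h2 : 2 * c * t + b + s ≠ 0 := by linarith
    simp only [id]
    refine eq_inv_of_mul_eq_one_left ?_
    field_simp
    linear_combination s * hs2
  have hlim : Tendsto
      (fun t => (Real.log (2 * c * t + b - s) - Real.log (2 * c * t + b + s)) / s) atTop
      (𝓝 0) := by
    have h1 : Tendsto (fun t : ℝ => 1 - 2 * s * (2 * c * t + b + s)⁻¹) atTop (𝓝 1) := by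
      simpa [add_assoc] using
        (((tendsto_affine_atTop hc (b + s)).inv_tendsto_atTop).const_mul (2 * s)).const_sub 1
    have h2 := ((Real.continuousAt_log one_ne_zero).tendsto.comp h1).div_const s
    rw [Real.log_one, zero_div] at h2
    refine h2.congr' ((eventually_ge_atTop 0).mono fun t ht => ?_)
    have hct : 0 ≤ 2 * c * t := by positivity
    simp only [Function.comp]
    rw [← Real.log_div (by linarith) (by linarith)]
    congr 2
    have h3 : 2 * c * t + b + s ≠ 0 := by linarith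
    field_simp
    ring
  rw [integral_Ioi_of_hasDerivAt_of_nonneg' hder
    (fun t ht => (inv_pos.2 (hpos t (le_of_lt ht))).le) hlim, mul_zero, zero_add] at hJ
  have hexp : Real.exp (2 * s) = (b + s) / (b - s) := by
    have h1 : 2 * s = Real.log ((b + s) / (b - s)) := by
      rw [Real.log_div (by linarith) (by linarith)]
      field_simp at hJ
      linarith
    rw [h1, Real.exp_log (div_pos (by linarith) (by linarith))]
  have hsalg : IsAlgebraic ℚ s := IsAlgebraic.of_pow two_pos (by rwa [hs2])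
  have h2s : IsAlgebraic ℚ (2 * s) := (isAlgebraic_natCast (R := ℚ) (A := ℝ) 2).mul hsalg
  refine FA.Summary.hermite_lindemann (Complex.ofReal_ne_zero.2 (by positivity : (2 * s) ≠ 0))
    (h2s.algebraMap (A := ℂ)) ?_
  rw [← Complex.ofReal_exp, hexp, div_eq_mul_inv]
  exact ((hb.add hsalg).mul (hb.sub hsalg).inv).algebraMap (A := ℂ)

theorem eq_one_of_disc_zero (hD : b ^ 2 = 4 * a * c) (hc : 0 < c) (hb0 : 0 < b)
    (hpos : ∀ t, 0 ≤ t → 0 < a + b * t + c * t ^ 2)
    (hJ : ∫ t in Ioi (0 : ℝ), (a + b * t + c * t ^ 2)⁻¹ = 2) : b = 1 := by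
  have hder : ∀ t ∈ Ici (0 : ℝ), HasDerivAt (fun t => -(2 * (2 * c * t + b)⁻¹))
      (a + b * t + c * t ^ 2)⁻¹ t := by
    intro t ht
    rw [mem_Ici] at ht
    have hct : 0 ≤ 2 * c * t := by positivity
    have h1 : 2 * c * t + b ≠ 0 := by linarith
    have h := ((hasDerivAt_id t).const_mul (2 * c)).add_const b
    refine ((h.inv (by simpa using h1)).const_mul 2).neg.congr_deriv ?_
    have := hpos t ht
    simp only [id]
    refine eq_inv_of_mul_eq_one_left ?_
    field_simp
    linear_combination -hD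
  have hlim : Tendsto (fun t => -(2 * (2 * c * t + b)⁻¹)) atTop (𝓝 0) := by
    simpa using (((tendsto_affine_atTop hc b).inv_tendsto_atTop).const_mul 2).neg
  rw [integral_Ioi_of_hasDerivAt_of_nonneg' hder
    (fun t ht => (inv_pos.2 (hpos t (le_of_lt ht))).le) hlim, mul_zero, zero_add] at hJ
  field_simp at hJ
  linarith

/-- The leading form. -/
theorem IsPairing.lead (h : IsPairing a b c d e f) : a = 1 / 2 ∧ b = 1 ∧ c = 1 / 2 := by
  have ha := h.lead_pos
  have hc := h.lead_pos'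
  have hlt := h.neg_lt
  obtain ⟨δ, hδ, hQ⟩ := exists_form_ge ha hc hlt
  have hpos : ∀ t, 0 ≤ t → 0 < a + b * t + c * t ^ 2 := fun t ht => quadratic_pos hδ hQ ht
  have hJ := integral_inv_eq_two h hδ hQ
  obtain ⟨⟨A2, hA⟩, ⟨C2, hC⟩, ⟨B, hB⟩, -⟩ := h.integral
  have hbalg : IsAlgebraic ℚ b := hB ▸ isAlgebraic_intCast B
  have h4 : 4 * a * c = ((A2 * C2 : ℤ) : ℝ) := by push_cast; rw [← hA, ← hC]; ring
  have hs := Real.sq_sqrt (mul_pos ha hc).le
  have hs0 := Real.sqrt_nonneg (a * c)
  rcases lt_trichotomy (b ^ 2) (4 * a * c) with hD | hD | hD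
  · refine absurd hJ (not_disc_neg ?_ hbalg hD hc hpos)
    rw [h4]
    exact (isAlgebraic_intCast _).sub (hbalg.pow 2)
  · have hb0 : 0 < b := by nlinarith [mul_pos ha hc]
    have hb1 := eq_one_of_disc_zero hD hc hb0 hpos hJ
    have hA1 : 1 ≤ A2 := by exact_mod_cast (show (0 : ℝ) < A2 by linarith)
    have hC1 : 1 ≤ C2 := by exact_mod_cast (show (0 : ℝ) < C2 by linarith)
    have hAC : A2 * C2 = 1 := by
      have : ((A2 * C2 : ℤ) : ℝ) = 1 := by rw [← h4, ← hD, hb1, one_pow]
      exact_mod_cast this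
    have hA2 : A2 = 1 := Int.eq_one_of_mul_eq_one_right (by omega) hAC
    have hC2 : C2 = 1 := by rw [hA2, one_mul] at hAC; exact hAC
    subst hA2 hC2
    push_cast at hA hC
    exact ⟨by linarith, hb1, by linarith⟩
  · have hb0 : 0 < b := by nlinarith [mul_pos ha hc]
    refine absurd hJ (not_disc_pos ?_ hbalg hD ha hc hb0 hpos)
    rw [h4]
    exact (hbalg.pow 2).sub (isAlgebraic_intCast _)

/-- The diagonals. -/
theorem diagonal_eq {g : ℕ × ℕ → ℕ} (hg : Function.Bijective g) {m k f : ℤ} (hmk : k < m)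
    (hv : ∀ x y : ℕ, (2 * g (x, y) : ℤ) =
      ((x : ℤ) + y) * ((x : ℤ) + y + 1) + 2 * m * x + 2 * k * y + 2 * f) :
    m = 1 ∧ k = 0 ∧ f = 0 := by
  have hno : ∀ x n : ℕ, 1 ≤ x → x ≤ n → (n : ℤ) + 1 + k ≠ (m - k) * x := by
    intro x n hx hxn he
    obtain ⟨y, rfl⟩ := Nat.exists_eq_add_of_le hxn
    have h1 := hv 0 (x + y + 1)
    have h2 := hv x y
    push_cast at h1 he
    have h3 : (g (0, x + y + 1) : ℤ) = g (x, y) := by nlinarith
    have h4 := congrArg Prod.fst (hg.1 (Int.ofNat_inj.1 h3))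
    simp only at h4
    omega
  have hr : m - k = 1 := by
    by_contra hne
    obtain ⟨x, hx⟩ : ∃ x : ℕ, (x : ℤ) = 2 * |k| + 2 := ⟨(2 * |k| + 2).toNat, by
      rw [Int.toNat_of_nonneg (by positivity)]⟩
    have h2 : 2 * (x : ℤ) ≤ (m - k) * x := mul_le_mul_of_nonneg_right (by omega) (by positivity)
    obtain ⟨n, hn⟩ : ∃ n : ℕ, (n : ℤ) = (m - k) * x - 1 - k :=
      ⟨((m - k) * x - 1 - k).toNat, Int.toNat_of_nonneg (by linarith [le_abs_self k, abs_nonneg k])⟩
    refine hno x n ?_ ?_ (by linarith)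
    · have : (1 : ℤ) ≤ x := by linarith [abs_nonneg k]
      exact_mod_cast this
    · have : (x : ℤ) ≤ n := by linarith [le_abs_self k, abs_nonneg k]
      exact_mod_cast this
  have hk : k = 0 := by
    rcases lt_trichotomy k 0 with h | h | h
    · exact absurd (by rw [hr]; omega : ((-k).toNat : ℤ) + 1 + k = (m - k) * (1 : ℕ))
        (hno 1 (-k).toNat le_rfl (by omega))
    · exact h
    · exfalso
      have h0 := hv 0 0
      push_cast at h0
      obtain ⟨⟨x, y⟩, hxy⟩ := hg.2 (g (0, 0) + 1)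
      have h1 := hv x y
      rw [hxy] at h1
      push_cast at h1
      rcases Nat.eq_zero_or_pos (x + y) with hz | hp
      · obtain ⟨rfl, rfl⟩ : x = 0 ∧ y = 0 := by omega
        push_cast at h1
        linarith
      · have hn1 : (1 : ℤ) ≤ (x : ℤ) + y := by exact_mod_cast hp
        have hx0 : (0 : ℤ) ≤ x := Nat.cast_nonneg x
        obtain rfl : m = k + 1 := by omega
        nlinarith [mul_le_mul_of_nonneg_left hn1 (show (0 : ℤ) ≤ 2 * k by omega)]
  refine ⟨by omega, hk, ?_⟩
  obtain ⟨⟨x, y⟩, hxy⟩ := hg.2 0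
  have h1 := hv x y
  have h0 := hv 0 0
  rw [hxy, hk, show m = 1 by omega] at h1
  push_cast at h0 h1
  nlinarith [Nat.cast_nonneg (α := ℤ) x, Nat.cast_nonneg (α := ℤ) y,
    Nat.cast_nonneg (α := ℤ) (g (0, 0))]

/-- Cantor's map. -/
def cantor (p : ℕ × ℕ) : ℕ := (p.1 + p.2) * (p.1 + p.2 + 1) / 2 + p.1

theorem two_mul_cantor (p : ℕ × ℕ) :
    2 * cantor p = (p.1 + p.2) * (p.1 + p.2 + 1) + 2 * p.1 := by
  rw [cantor, mul_add, Nat.mul_div_cancel' (Nat.even_mul_succ_self _).two_dvd]

theorem cantor_bijective : Function.Bijective cantor := by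
  constructor
  · rintro ⟨x, y⟩ ⟨u, v⟩ h
    have h1 := two_mul_cantor (x, y)
    have h2 := two_mul_cantor (u, v)
    rw [h] at h1
    simp only at h1 h2
    have hn : x + y = u + v := by
      rcases lt_trichotomy (x + y) (u + v) with h3 | h3 | h3
      · have := Nat.mul_le_mul (Nat.succ_le_of_lt h3) (Nat.succ_le_of_lt (Nat.succ_lt_succ h3))
        nlinarith
      · exact h3
      · have := Nat.mul_le_mul (Nat.succ_le_of_lt h3) (Nat.succ_le_of_lt (Nat.succ_lt_succ h3))
        nlinarith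
    rw [hn] at h1
    exact Prod.ext (show x = u by omega) (show y = v by omega)
  · intro N
    induction N with
    | zero => exact ⟨(0, 0), rfl⟩
    | succ N ih =>
      obtain ⟨⟨x, y⟩, h⟩ := ih
      have h1 := two_mul_cantor (x, y)
      simp only at h1
      rcases Nat.eq_zero_or_pos y with rfl | hy
      · refine ⟨(0, x + 1), ?_⟩
        have h2 := two_mul_cantor (0, x + 1)
        simp only at h2
        nlinarith
      · refine ⟨(x + 1, y - 1), ?_⟩
        have h2 := two_mul_cantor (x + 1, y - 1)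
        simp only at h2
        rw [show x + 1 + (y - 1) = x + y by omega] at h2
        omega

/-- **The theorem of Fueter and Pólya.** -/
theorem isPairing_iff : IsPairing a b c d e f ↔ a = 1 / 2 ∧ b = 1 ∧ c = 1 / 2 ∧ f = 0 ∧
    ((d = 3 / 2 ∧ e = 1 / 2) ∨ (d = 1 / 2 ∧ e = 3 / 2)) := by
  constructor
  · intro h
    obtain ⟨rfl, rfl, rfl⟩ := h.lead
    obtain ⟨-, -, -, ⟨A, hA⟩, ⟨C, hC⟩, ⟨F, hF⟩⟩ := h.integral
    obtain ⟨g, hg, hgv⟩ := h
    have hv : ∀ x y : ℕ, (2 * g (x, y) : ℤ) = ((x : ℤ) + y) * ((x : ℤ) + y + 1) +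
        2 * (A - 1) * x + 2 * (C - 1) * y + 2 * (F : ℤ) := by
      intro x y
      have h1 : ((2 * g (x, y) : ℤ) : ℝ) = ((((x : ℤ) + y) * ((x : ℤ) + y + 1) +
          2 * (A - 1) * x + 2 * (C - 1) * y + 2 * (F : ℤ) : ℤ) : ℝ) := by
        push_cast
        rw [hgv, quad]
        simp only
        rw [hF, ← hA, ← hC]
        ring
      exact_mod_cast h1
    refine ⟨rfl, rfl, rfl, ?_⟩
    rcases lt_trichotomy (C - 1) (A - 1) with hlt | heq | hgt
    · obtain ⟨h1, h2, h3⟩ := diagonal_eq hg hlt hv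
      obtain rfl : A = 2 := by omega
      obtain rfl : C = 1 := by omega
      obtain rfl : F = 0 := by omega
      push_cast at hA hC hF
      exact ⟨hF, Or.inl ⟨by linarith, by linarith⟩⟩
    · exfalso
      have h1 := hv 1 0
      have h2 := hv 0 1
      push_cast at h1 h2
      rw [heq] at h2
      have h3 : (g (1, 0) : ℤ) = g (0, 1) := by linarith
      exact absurd (hg.1 (Int.ofNat_inj.1 h3)) (by decide)
    · obtain ⟨h1, h2, h3⟩ := diagonal_eq (g := g ∘ Prod.swap) (hg.comp Prod.swap_bijective) hgt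
        (f := (F : ℤ)) fun x y => by
          show (2 * g (y, x) : ℤ) = _
          rw [hv]
          ring
      obtain rfl : C = 2 := by omega
      obtain rfl : A = 1 := by omega
      obtain rfl : F = 0 := by omega
      push_cast at hA hC hF
      exact ⟨hF, Or.inr ⟨by linarith, by linarith⟩⟩
  · rintro ⟨rfl, rfl, rfl, rfl, ⟨rfl, rfl⟩ | ⟨rfl, rfl⟩⟩
    · refine ⟨cantor, cantor_bijective, fun p => ?_⟩
      have h := congrArg (Nat.cast (R := ℝ)) (two_mul_cantor p)
      push_cast at h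
      rw [quad]
      linarith
    · refine ⟨cantor ∘ Prod.swap, cantor_bijective.comp Prod.swap_bijective, fun p => ?_⟩
      have h := congrArg (Nat.cast (R := ℝ)) (two_mul_cantor p.swap)
      simp only [Prod.fst_swap, Prod.snd_swap] at h
      push_cast at h
      rw [Function.comp_apply, quad]
      linarith

end FA.FueterPolya

end
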