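import Fermat.Agent.FueterPolya.Area

/-!
# The leading form of a quadratic pairing polynomial

Its outer coefficients are positive, half integers, and the form is positive on the quadrant.
-/

set_option autoImplicit false

noncomputable section

open Finset

namespace FA.FueterPolya

variable {a b c d e f : ℝ}

/-- Exchange of the variables. -/
theorem IsPairing.swap (h : IsPairing a b c d e f) : IsPairing c b a e d f := by
  obtain ⟨g, hg, hv⟩ := h
  exact ⟨g ∘ Prod.swap, hg.comp Prod.swap_bijective, fun p => by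
    rw [Function.comp_apply, hv]
    simp only [quad, Prod.fst_swap, Prod.snd_swap]
    ring⟩

/-- The values at integers are integers. -/
theorem IsPairing.integral (h : IsPairing a b c d e f) :
    (∃ n : ℤ, 2 * a = n) ∧ (∃ n : ℤ, 2 * c = n) ∧ (∃ n : ℤ, b = n) ∧ (∃ n : ℤ, a + d = n) ∧
      (∃ n : ℤ, c + e = n) ∧ ∃ n : ℕ, f = n := by
  obtain ⟨g, -, hv⟩ := h
  have h00 := hv (0, 0)
  have h10 := hv (1, 0)
  have h20 := hv (2, 0)
  have h01 := hv (0, 1)
  have h02 := hv (0, 2)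
  have h11 := hv (1, 1)
  simp only [quad] at h00 h10 h20 h01 h02 h11
  norm_num at h00 h10 h20 h01 h02 h11
  refine ⟨⟨(g (2, 0) : ℤ) - 2 * g (1, 0) + g (0, 0), by push_cast; linarith⟩,
    ⟨(g (0, 2) : ℤ) - 2 * g (0, 1) + g (0, 0), by push_cast; linarith⟩,
    ⟨(g (1, 1) : ℤ) - g (1, 0) - g (0, 1) + g (0, 0), by push_cast; linarith⟩,
    ⟨(g (1, 0) : ℤ) - g (0, 0), by push_cast; linarith⟩,
    ⟨(g (0, 1) : ℤ) - g (0, 0), by push_cast; linarith⟩, ⟨g (0, 0), by linarith⟩⟩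

theorem IsPairing.nonneg (h : IsPairing a b c d e f) (x y : ℕ) : 0 ≤ quad a b c d e f x y := by
  obtain ⟨g, -, hv⟩ := h
  rw [← hv (x, y)]
  positivity

/-- A quadratic nonnegative at all natural numbers. -/
theorem nonneg_lead {A B C : ℝ} (h : ∀ x : ℕ, 0 ≤ A * (x : ℝ) ^ 2 + B * x + C) : 0 ≤ A := by
  by_contra hA
  rw [not_le] at hA
  obtain ⟨x, hx⟩ := exists_nat_gt ((|B| + |C|) / -A + 1)
  have hx1 : 1 ≤ (x : ℝ) := le_trans (by
    have : 0 ≤ (|B| + |C|) / -A := div_nonneg (by positivity) (by linarith)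
    linarith) hx.le
  have hx2 : (|B| + |C|) < -A * x := by
    rw [← div_lt_iff₀' (by linarith : (0 : ℝ) < -A)]
    linarith
  have := h x
  nlinarith [le_abs_self B, le_abs_self C, abs_nonneg C, mul_lt_mul_of_pos_right hx2
    (lt_of_lt_of_le one_pos hx1)]

theorem IsPairing.lead_pos (h : IsPairing a b c d e f) : 0 < a := by
  have ha : 0 ≤ a := nonneg_lead fun x => by simpa [quad] using h.nonneg x 0
  refine lt_of_le_of_ne ha fun ha0 => ?_
  obtain ⟨-, ⟨C2, hC2⟩, ⟨B, hB⟩, ⟨Dz, hDz⟩, ⟨E, hE⟩, -⟩ := h.integral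
  have hd : d = (Dz : ℝ) := by linarith
  have hlin := h.nonneg
  obtain ⟨g, hg, hv⟩ := h
  -- `d` is a positive integer
  have hd0 : 0 ≤ d := by
    by_contra hd0
    rw [not_le] at hd0
    obtain ⟨x, hx⟩ := exists_nat_gt (f / -d)
    rw [div_lt_iff₀ (by linarith)] at hx
    have := hlin x 0
    simp only [quad, ← ha0] at this
    push_cast at this
    nlinarith
  have hd1 : d ≠ 0 := fun e0 => by
    have h1 := hv (1, 0)
    have h2 := hv (0, 0)
    simp only [quad, ← ha0, e0] at h1 h2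
    norm_num at h1 h2
    have := hg.1 (Nat.cast_injective (R := ℝ) (h1.trans h2.symm))
    exact absurd this (by decide)
  obtain ⟨D, rfl⟩ : ∃ D : ℕ, Dz = D := Int.eq_ofNat_of_zero_le (by
    rw [hd] at hd0
    exact_mod_cast hd0)
  push_cast at hd
  have hDpos : (0 : ℝ) < D := by rw [← hd]; exact lt_of_le_of_ne hd0 (Ne.symm hd1)
  have hb : 0 ≤ B := by
    by_contra hb
    have hb1 : (B : ℝ) ≤ -1 := by exact_mod_cast (show B ≤ -1 by omega)
    obtain ⟨x, hx⟩ := exists_nat_gt |c * ((D : ℝ) + 1) ^ 2 + e * ((D : ℝ) + 1) + f|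
    have := hlin x (D + 1)
    simp only [quad, ← ha0, hB, hd] at this
    push_cast at this
    nlinarith [le_abs_self (c * ((D : ℝ) + 1) ^ 2 + e * ((D : ℝ) + 1) + f),
      mul_le_mul_of_nonneg_right hb1 (mul_nonneg (Nat.cast_nonneg (α := ℝ) x)
        (by positivity : (0 : ℝ) ≤ (D : ℝ) + 1))]
  -- a collision
  set K : ℤ := 2 * C2 * D + 2 * E - C2 with hK
  obtain ⟨N, hN⟩ : ∃ N : ℕ, |K| = N := ⟨K.natAbs, Int.abs_eq_natAbs K⟩
  have hM0 : 0 ≤ K + (2 * B + 1) * (N : ℤ) := by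
    nlinarith [neg_abs_le K, mul_nonneg hb (Nat.cast_nonneg (α := ℤ) N)]
  obtain ⟨M, hM⟩ := Int.eq_ofNat_of_zero_le hM0
  have hMR : (K : ℝ) + (2 * (B : ℝ) + 1) * (N : ℝ) = (M : ℝ) := by
    exact_mod_cast hM
  have h1 := hv (N, 2 * D)
  have h2 := hv (M, 0)
  simp only [quad, ← ha0, hB, hd] at h1 h2
  push_cast at h1 h2
  have hKR : (K : ℝ) = 4 * c * D + 2 * e := by
    rw [hK]
    push_cast
    linear_combination (-(2 * (D : ℝ) - 1)) * hC2 - 2 * hE
  have heq : g (N, 2 * D) = g (M, 0) := by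
    refine Nat.cast_injective (R := ℝ) ?_
    rw [h1, h2, ← hMR, hKR]
    ring
  have h3 := congrArg Prod.snd (hg.1 heq)
  simp only at h3
  have : D = 0 := by omega
  rw [this] at hDpos
  simp at hDpos

theorem IsPairing.lead_pos' (h : IsPairing a b c d e f) : 0 < c := h.swap.lead_pos

/-- The form is positive on the quadrant. -/
theorem IsPairing.neg_lt (h : IsPairing a b c d e f) : -(2 * Real.sqrt (a * c)) < b := by
  have ha := h.lead_pos
  have hc := h.lead_pos'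
  obtain ⟨g, hg, hv⟩ := h
  by_contra hb
  rw [not_lt, Real.sqrt_mul ha.le] at hb
  set α := Real.sqrt a with hα
  set γ := Real.sqrt c with hγ
  have hα2 : α * α = a := Real.mul_self_sqrt ha.le
  have hγ2 : γ * γ = c := Real.mul_self_sqrt hc.le
  have hγ0 : 0 < γ := Real.sqrt_pos.2 hc
  have hα0 : 0 ≤ α := Real.sqrt_nonneg a
  set r := α / γ with hr
  have hr0 : 0 ≤ r := by positivity
  set C := c + |d| + |e| * (r + 1) + |f| with hC
  have hC0 : 0 ≤ C := by positivity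
  obtain ⟨M, hM⟩ := exists_nat_gt (C + 1)
  have hM1 : (1 : ℝ) ≤ M := by linarith
  set u : ℕ × ℕ → ℕ := fun p => g (p.1, ⌈r * p.1⌉₊ + p.2) with hu
  have hmaps : ∀ p ∈ range (M ^ 2) ×ˢ range M, u p ∈ range (⌊C * (M : ℝ) ^ 2⌋₊ + 1) := by
    rintro ⟨x, j⟩ hp
    simp only [mem_product, mem_range] at hp
    rw [mem_range, Nat.lt_succ_iff, Nat.le_floor_iff (by positivity), hu]
    simp only
    rw [hv]
    simp only [quad]
    push_cast
    set y : ℝ := (⌈r * x⌉₊ : ℕ) + (j : ℝ) with hy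
    have hx : (x : ℝ) ≤ (M : ℝ) ^ 2 := by exact_mod_cast hp.1.le
    have hj : (j : ℝ) + 1 ≤ M := by exact_mod_cast hp.2
    have hc1 := Nat.le_ceil (r * x)
    have hc2 := Nat.ceil_lt_add_one (show (0 : ℝ) ≤ r * x by positivity)
    have hx0 : (0 : ℝ) ≤ x := Nat.cast_nonneg x
    have hj0 : (0 : ℝ) ≤ j := Nat.cast_nonneg j
    have hy0 : 0 ≤ y := by positivity
    have ht : (y - r * x) ^ 2 ≤ (M : ℝ) ^ 2 :=
      pow_le_pow_left₀ (by linarith) (by linarith) 2
    have hγr : γ * r = α := by rw [hr]; field_simp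
    have hQ : a * (x : ℝ) ^ 2 + b * x * y + c * y ^ 2 ≤ c * (M : ℝ) ^ 2 := by
      have h1 := mul_le_mul_of_nonneg_left ht hc.le
      have h2 : c * (y - r * x) ^ 2 = a * (x : ℝ) ^ 2 - 2 * (α * γ) * x * y + c * y ^ 2 := by
        rw [← hα2, ← hγ2, ← hγr]
        ring
      nlinarith [mul_le_mul_of_nonneg_right hb (mul_nonneg hx0 hy0)]
    have hMM : (M : ℝ) ≤ (M : ℝ) ^ 2 := by nlinarith
    have hyb : y ≤ (r + 1) * (M : ℝ) ^ 2 := by nlinarith
    have hd' : d * x ≤ |d| * (M : ℝ) ^ 2 :=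
      (mul_le_mul_of_nonneg_right (le_abs_self d) hx0).trans
        (mul_le_mul_of_nonneg_left hx (abs_nonneg d))
    have he' : e * y ≤ |e| * ((r + 1) * (M : ℝ) ^ 2) :=
      (mul_le_mul_of_nonneg_right (le_abs_self e) hy0).trans
        (mul_le_mul_of_nonneg_left hyb (abs_nonneg e))
    have hf' : f ≤ |f| * (M : ℝ) ^ 2 :=
      (le_abs_self f).trans (le_mul_of_one_le_right (abs_nonneg f) (one_le_pow₀ hM1))
    rw [hC]
    linarith
  have hcard := card_le_card_of_injOn u hmaps (fun p _ q _ hpq => by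
    have h1 := hg.1 hpq
    simp only [Prod.mk.injEq] at h1
    refine Prod.ext h1.1 ?_
    have h2 := h1.2
    rw [h1.1] at h2
    exact Nat.add_left_cancel h2)
  rw [card_product, card_range, card_range, card_range] at hcard
  have h1 : (M : ℝ) ^ 2 * M ≤ C * (M : ℝ) ^ 2 + 1 := by
    have := Nat.floor_le (show (0 : ℝ) ≤ C * (M : ℝ) ^ 2 by positivity)
    have h2 : (((M ^ 2 * M : ℕ)) : ℝ) ≤ ((⌊C * (M : ℝ) ^ 2⌋₊ + 1 : ℕ) : ℝ) := Nat.cast_le.2 hcard
    push_cast at h2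
    linarith
  nlinarith

/-- A lower bound for the form. -/
theorem exists_form_ge (ha : 0 < a) (hc : 0 < c) (hb : -(2 * Real.sqrt (a * c)) < b) :
    ∃ δ : ℝ, 0 < δ ∧ ∀ u v : ℝ, 0 ≤ u → 0 ≤ v →
      δ * (u ^ 2 + v ^ 2) ≤ a * u ^ 2 + b * u * v + c * v ^ 2 := by
  set s := Real.sqrt (a * c) with hs
  have hs0 : 0 < s := Real.sqrt_pos.2 (mul_pos ha hc)
  set l := max 0 (-b / (2 * s)) with hl
  have hl0 : 0 ≤ l := le_max_left _ _
  have hl1 : l < 1 := max_lt one_pos (by rw [div_lt_one (by positivity)]; linarith)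
  have hlb : -(2 * s * l) ≤ b := by
    have := le_max_right 0 (-b / (2 * s))
    rw [← hl, div_le_iff₀ (by positivity)] at this
    linarith
  refine ⟨(1 - l) * min a c, mul_pos (by linarith) (lt_min ha hc), fun u v hu hv => ?_⟩
  have h1 : 2 * s * (u * v) ≤ a * u ^ 2 + c * v ^ 2 := by
    have hsa : Real.sqrt a * Real.sqrt c = s := (Real.sqrt_mul ha.le c).symm
    have : (Real.sqrt a * u - Real.sqrt c * v) ^ 2 = a * u ^ 2 + c * v ^ 2 - 2 * s * (u * v) := by
      rw [← hsa]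
      linear_combination u ^ 2 * Real.sq_sqrt ha.le + v ^ 2 * Real.sq_sqrt hc.le
    linarith [sq_nonneg (Real.sqrt a * u - Real.sqrt c * v)]
  have h2 := mul_le_mul_of_nonneg_left h1 hl0
  have h3 := mul_le_mul_of_nonneg_right hlb (mul_nonneg hu hv)
  have h4 : min a c * (u ^ 2 + v ^ 2) ≤ a * u ^ 2 + c * v ^ 2 := by
    nlinarith [min_le_left a c, min_le_right a c, sq_nonneg u, sq_nonneg v]
  nlinarith [mul_le_mul_of_nonneg_left h4 (by linarith : (0 : ℝ) ≤ 1 - l)]

end FA.FueterPolya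

end
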